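import Fermat.Agent.OrdinaryCongruence.Lifting
import Fermat.Agent.DeltaFamily.Examples

/-!
# Congruences between ordinary eigenforms

The coefficients of positive index of an eigenform are integral over `ι(ℤ_p)`, and modulo a prime
over `p` the ordinary eigenforms of congruent weights have the same systems.
-/

set_option autoImplicit false
set_option linter.unusedSectionVars false

noncomputable section

open UpperHalfPlane hiding I
open PowerSeries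
open scoped MatrixGroups ModularForm

namespace FA.OrdinaryCongruence

open FA.PadicForms FA.OrdinaryProj FA.LambdaHecke FA.LevelOneControl FA.OrdinaryReduced
  FA.OrdinaryCount

variable {p : ℕ} [Fact p.Prime] {k m : ℕ}

/-- A predicate on the indices at least `1` that follows the recursion at the primes. -/
theorem prime_induction {Q : ℕ → Prop} (h1 : Q 1)
    (h : ∀ l n : ℕ, l.Prime → 1 ≤ n → Q n → (l ∣ n → Q (n / l)) → Q (n * l)) {n : ℕ}
    (hn : 1 ≤ n) : Q n := by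
  induction n using Nat.strong_induction_on with
  | _ n ih =>
  rcases hn.eq_or_lt with rfl | hn2
  · exact h1
  obtain ⟨l, hl, j, rfl⟩ : ∃ l, l.Prime ∧ l ∣ n := ⟨n.minFac, Nat.minFac_prime (by omega),
    n.minFac_dvd⟩
  have hj : 1 ≤ j := Nat.pos_of_ne_zero fun e => by simp [e] at hn
  have hjl : j < l * j := lt_mul_of_one_lt_left hj hl.one_lt
  rw [mul_comm]
  exact h l j hl hj (ih j hjl hj) fun hd =>
    ih (j / l) ((Nat.div_le_self j l).trans_lt hjl)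
      (Nat.div_pos (Nat.le_of_dvd hj hd) hl.pos)

/-- **The coefficients are integral.** -/
theorem coeff_mem_intNums (h5 : 5 ≤ p) (hk : 3 ≤ k) (ι : ℚ_[p] →+* ℂ)
    {F : ModularForm 𝒮ℒ (k : ℤ)} (hF : IsEigenForm F) {n : ℕ} (hn : 1 ≤ n) :
    (qExpansion 1 ⇑F).coeff n ∈ intNums ι := by
  obtain ⟨χ, hχ⟩ := exists_char_of_eigen hk ι hF
  refine prime_induction (Q := fun n => (qExpansion 1 ⇑F).coeff n ∈ intNums ι) ?_
    (fun l j hl hj hQ hQd => ?_) hn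
  · rw [hF.1]
    exact one_mem _
  · rw [← add_sub_cancel_right ((qExpansion 1 ⇑F).coeff (j * l))
      (if l ∣ j then (l : ℂ) ^ (k - 1) * (qExpansion 1 ⇑F).coeff (j / l) else 0), hF.2 l hl j,
      ← hχ ⟨l, hl⟩]
    refine sub_mem (mul_mem (char_mem h5 hk χ _) hQ) ?_
    split_ifs with hd
    · exact mul_mem (pow_mem (natCast_mem _ l) _) (hQd hd)
    · exact zero_mem _

/-- `l ^ (k - 1)` in congruent weights. -/
theorem natCast_pow_sub_mem {R : Type*} [CommRing R] (P : Ideal R) (hp : (p : R) ∈ P) (l : ℕ)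
    (hk : 2 ≤ k) (hm : 2 ≤ m) (hc : (k : ZMod (p - 1)) = (m : ZMod (p - 1))) :
    (l : R) ^ (k - 1) - (l : R) ^ (m - 1) ∈ P := by
  obtain ⟨z, hz⟩ : (p : ℤ) ∣ (l : ℤ) ^ (k - 1) - (l : ℤ) ^ (m - 1) := by
    rw [← ZMod.intCast_zmod_eq_zero_iff_dvd]
    push_cast
    rw [pow_congr l hk hm hc, sub_self]
  have h := congrArg (fun x : ℤ => (x : R)) hz
  push_cast at h
  rw [h]
  exact P.mul_mem_right _ hp

/-- The same systems at the primes give congruent coefficients. -/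
theorem coeff_congr (h5 : 5 ≤ p) (hk : 3 ≤ k) (hm : 3 ≤ m)
    (hc : (k : ZMod (p - 1)) = (m : ZMod (p - 1))) (ι : ℚ_[p] →+* ℂ)
    (P : Ideal ↥(intNums ι)) (hp : (p : ↥(intNums ι)) ∈ P)
    {F : ModularForm 𝒮ℒ (k : ℤ)} (hF : IsEigenForm F) {G : ModularForm 𝒮ℒ (m : ℤ)}
    (hG : IsEigenForm G)
    (h : ∀ l : ℕ, l.Prime → ∃ u : ↥(intNums ι), u ∈ P ∧
      (u : ℂ) = (qExpansion 1 ⇑F).coeff l - (qExpansion 1 ⇑G).coeff l) {n : ℕ} (hn : 1 ≤ n) :
    ∃ u : ↥(intNums ι), u ∈ P ∧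
      (u : ℂ) = (qExpansion 1 ⇑F).coeff n - (qExpansion 1 ⇑G).coeff n := by
  refine prime_induction (Q := fun n => ∃ u : ↥(intNums ι), u ∈ P ∧
      (u : ℂ) = (qExpansion 1 ⇑F).coeff n - (qExpansion 1 ⇑G).coeff n) ?_
    (fun l j hl hj hQ hQd => ?_) hn
  · exact ⟨0, P.zero_mem, by rw [hF.1, hG.1, sub_self]; rfl⟩
  obtain ⟨u, hu, hue⟩ := hQ
  obtain ⟨v, hv, hve⟩ := h l hl
  obtain ⟨b, hb⟩ : ∃ b : ↥(intNums ι), (b : ℂ) = (qExpansion 1 ⇑G).coeff l :=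
    ⟨⟨_, coeff_mem_intNums h5 hm ι hG hl.one_le⟩, rfl⟩
  obtain ⟨a, ha⟩ : ∃ a : ↥(intNums ι), (a : ℂ) = (qExpansion 1 ⇑F).coeff j :=
    ⟨⟨_, coeff_mem_intNums h5 hk ι hF hj⟩, rfl⟩
  have e1 := hF.2 l hl j
  have e2 := hG.2 l hl j
  by_cases hd : l ∣ j
  · rw [if_pos hd] at e1 e2
    obtain ⟨w, hw, hwe⟩ := hQd hd
    obtain ⟨c, hc'⟩ : ∃ c : ↥(intNums ι), (c : ℂ) = (qExpansion 1 ⇑F).coeff (j / l) :=
      ⟨⟨_, coeff_mem_intNums h5 hk ι hF (Nat.div_pos (Nat.le_of_dvd hj hd) hl.pos)⟩, rfl⟩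
    refine ⟨v * a + b * u - (((l : ↥(intNums ι)) ^ (k - 1) - (l : ↥(intNums ι)) ^ (m - 1)) * c +
      (l : ↥(intNums ι)) ^ (m - 1) * w),
      P.sub_mem (P.add_mem (P.mul_mem_right _ hv) (P.mul_mem_left _ hu))
        (P.add_mem (P.mul_mem_right _ (natCast_pow_sub_mem P hp l (by omega) (by omega) hc))
          (P.mul_mem_left _ hw)), ?_⟩
    push_cast
    rw [hve, ha, hb, hue, hc', hwe]
    linear_combination e2 - e1
  · rw [if_neg hd, add_zero] at e1 e2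
    refine ⟨v * a + b * u, P.add_mem (P.mul_mem_right _ hv) (P.mul_mem_left _ hu), ?_⟩
    push_cast
    rw [hve, ha, hb, hue, e1, e2]
    ring

/-- **Hida's congruences.** -/
theorem exists_congruent (h5 : 5 ≤ p) (hk : 3 ≤ k) (hm : 3 ≤ m)
    (hc : (k : ZMod (p - 1)) = (m : ZMod (p - 1))) (ι : ℚ_[p] →+* ℂ)
    (P : Ideal ↥(intNums ι)) [P.IsPrime] (hp : (p : ↥(intNums ι)) ∈ P)
    {F : ModularForm 𝒮ℒ (k : ℤ)} (hF : IsEigenForm F) (hu : IsUnitAt ι F) :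
    ∃ G : ModularForm 𝒮ℒ (m : ℤ), IsEigenForm G ∧ IsUnitAt ι G ∧
      ∀ n, 1 ≤ n → ∃ u : ↥(intNums ι), u ∈ P ∧
        (u : ℂ) = (qExpansion 1 ⇑F).coeff n - (qExpansion 1 ⇑G).coeff n := by
  obtain ⟨χ, hχ⟩ := exists_char_of_eigen hk ι hF
  have hT : ∀ T : ↥(lvlAlg p k), IsTp T → IsIntUnit ι (χ.1 T) := fun T hT => by
    have e : T = heckeHom p hk (MvPolynomial.X ⟨p, Fact.out⟩) := Subtype.ext (LinearMap.ext
      fun x => Subtype.ext ((hT x).trans (act_heckeHom_X hk ⟨p, Fact.out⟩ x).symm))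
    rw [e, hχ]
    exact hu
  obtain ⟨G, hG, hGu, hGl⟩ := exists_lift_system h5 hm ι P hp
    ((Ideal.Quotient.mk P).comp (charInt h5 hk χ)) fun r hr => by
      obtain ⟨c, hc'⟩ := exists_eq_p_mul h5 hk hT (r := r) fun x hx => by
        obtain ⟨y, hy, hxy⟩ := exists_lift_vec h5 (redOrd_mem h5 hm hc.symm hx)
        rw [redOrd_congr h5 hk hm hc r hx hy hxy.symm, hr y hy]
      rw [RingHom.comp_apply, hc', Ideal.Quotient.eq_zero_iff_mem]
      exact P.mul_mem_right _ hp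
  refine ⟨G, hG, hGu, fun n hn => coeff_congr h5 hk hm hc ι P hp hF hG (fun l hl => ?_) hn⟩
  obtain ⟨b, hb, hbψ⟩ := hGl ⟨l, hl⟩
  rw [RingHom.comp_apply, Ideal.Quotient.eq] at hbψ
  refine ⟨-(b - charInt h5 hk χ (MvPolynomial.X ⟨l, hl⟩)), P.neg_mem hbψ, ?_⟩
  rw [Subring.coe_neg, AddSubgroupClass.coe_sub, hb, coe_charInt, hχ, neg_sub]

/-- A system modulo `p` of a vector fixed by a power of `U` lifts. -/
theorem exists_lift_vector (h5 : 5 ≤ p) (hm : 3 ≤ m) (ι : ℚ_[p] →+* ℂ)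
    (P : Ideal ↥(intNums ι)) [P.IsPrime] (hp : (p : ↥(intNums ι)) ∈ P)
    {v : PowerSeries (ZMod p)} (hv : v ∈ ordModP p m) (hv0 : v ≠ 0) (a : ℕ → ℤ)
    (ha : ∀ l : ℕ, l.Prime → tSer ((l : ZMod p) ^ (m - 1)) l v = C (a l : ZMod p) * v) :
    ∃ G : ModularForm 𝒮ℒ (m : ℤ), IsEigenForm G ∧ IsUnitAt ι G ∧
      ∀ l : ℕ, l.Prime → ∃ u : ↥(intNums ι), u ∈ P ∧
        (u : ℂ) = (qExpansion 1 ⇑G).coeff l - (a l : ℂ) := by
  obtain ⟨ψ₀, hψ₀⟩ : ∃ ψ₀ : HeckePoly →+* ℤ, ∀ l, ψ₀ (MvPolynomial.X l) = a l.1 :=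
    ⟨MvPolynomial.eval₂Hom (RingHom.id ℤ) fun l => a l.1, fun l => MvPolynomial.eval₂Hom_X' _ _ l⟩
  obtain ⟨y, hy, hyv⟩ := exists_lift_vec h5 hv
  have hact : ∀ (r : HeckePoly) (x : ↥(qpSpace p m)), SupLe (x : PowerSeries ℚ_[p]) 1 →
      ∀ c : ZMod p, redOrd x = C c * v →
      redOrd (act (heckeHom p hm r) x) = C ((ψ₀ r : ZMod p) * c) * v := fun r => by
    induction r using MvPolynomial.induction_on with
    | C b =>
      intro x hx c hc
      rw [act_heckeHom_C, redOrd_smul h5 hx, hc, map_intCast, ← mul_assoc, ← map_mul,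
        show ψ₀ (MvPolynomial.C b) = b by
          simp]
    | add r s hr hs =>
      intro x hx c hc
      rw [map_add, show act (heckeHom p hm r + heckeHom p hm s) x =
          act (heckeHom p hm r) x + act (heckeHom p hm s) x from rfl,
        redOrd_add h5 (supLe_heckeHom hm r hx) (supLe_heckeHom hm s hx), hr x hx c hc,
        hs x hx c hc, map_add ψ₀, Int.cast_add, ← add_mul, ← map_add, ← add_mul]
    | mul_X r l hr =>
      intro x hx c hc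
      rw [map_mul, show act (heckeHom p hm r * heckeHom p hm (MvPolynomial.X l)) x =
        act (heckeHom p hm r) (act (heckeHom p hm (MvPolynomial.X l)) x) from rfl,
        hr _ (supLe_heckeHom hm _ hx) ((a l.1 : ZMod p) * c) ?_, map_mul ψ₀, hψ₀, Int.cast_mul,
        mul_assoc]
      rw [redOrd_tSer h5 (by omega) l.2 (act_heckeHom_X hm l x) hx, hc, tSer_C_mul, ha l.1 l.2,
        ← mul_assoc, ← map_mul, mul_comm c]
  obtain ⟨G, hG, hGu, hGl⟩ := exists_lift_system h5 hm ι P hp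
    ((Ideal.Quotient.mk P).comp ((Int.castRingHom ↥(intNums ι)).comp ψ₀)) fun r hr => by
      have h := hact r y hy 1 (by rw [map_one, one_mul]; exact hyv)
      rw [hr y hy, mul_one, eq_comm, ← PowerSeries.smul_eq_C_mul, smul_eq_zero,
        or_iff_left hv0, ZMod.intCast_zmod_eq_zero_iff_dvd] at h
      obtain ⟨z, hz⟩ := h
      rw [RingHom.comp_apply, RingHom.comp_apply, eq_intCast, hz, Int.cast_mul, Int.cast_natCast,
        Ideal.Quotient.eq_zero_iff_mem]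
      exact P.mul_mem_right _ hp
  refine ⟨G, hG, hGu, fun l hl => ?_⟩
  obtain ⟨b, hb, hbψ⟩ := hGl ⟨l, hl⟩
  rw [RingHom.comp_apply, RingHom.comp_apply, hψ₀, eq_intCast, Ideal.Quotient.eq] at hbψ
  exact ⟨b - (a l : ↥(intNums ι)), hbψ, by rw [AddSubgroupClass.coe_sub, hb, Subring.coe_intCast]⟩

/-- An eigenform with a reduction that is not Eisenstein's goes to cusp forms. -/
theorem coeff_zero_of_congruent (hm : 2 ≤ m) (hk : 2 ≤ k)
    (hc : (k : ZMod (p - 1)) = (m : ZMod (p - 1))) {ι : ℚ_[p] →+* ℂ}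
    (P : Ideal ↥(intNums ι)) (hp : (p : ↥(intNums ι)) ∈ P)
    {F : ModularForm 𝒮ℒ (k : ℤ)} {G : ModularForm 𝒮ℒ (m : ℤ)} (hG : IsEigenForm G) {l : ℕ}
    (hl : l.Prime) (hne : ¬∃ u : ↥(intNums ι), u ∈ P ∧
      (u : ℂ) = (qExpansion 1 ⇑F).coeff l - (1 + (l : ℂ) ^ (k - 1)))
    (h : ∃ u : ↥(intNums ι), u ∈ P ∧
      (u : ℂ) = (qExpansion 1 ⇑F).coeff l - (qExpansion 1 ⇑G).coeff l) :
    (qExpansion 1 ⇑G).coeff 0 = 0 := by
  by_contra h0
  obtain ⟨u, hu, hue⟩ := h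
  refine hne ⟨u - ((l : ↥(intNums ι)) ^ (k - 1) - (l : ↥(intNums ι)) ^ (m - 1)),
    P.sub_mem hu (natCast_pow_sub_mem P hp l hk hm hc), ?_⟩
  push_cast
  rw [hue, coeff_prime_of_noncusp hG h0 hl]
  ring

/-- A maximal ideal of the integral numbers contains `p`. -/
theorem natCast_mem_of_isMaximal {ι : ℚ_[p] →+* ℂ} (P : Ideal ↥(intNums ι)) [P.IsMaximal] :
    (p : ↥(intNums ι)) ∈ P := by
  let := (intEmb ι).toAlgebra
  have : Algebra.IsIntegral ℤ_[p] ↥(intNums ι) := ⟨fun z => by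
    obtain ⟨Q, hQ, h⟩ := z.2
    refine ⟨Q, hQ, Subtype.ext ?_⟩
    exact ((Polynomial.hom_eval₂ Q (intEmb ι) (intNums ι).subtype z).trans h :)⟩
  have h := IsLocalRing.eq_maximalIdeal (Ideal.isMaximal_comap_of_isIntegral_of_isMaximal
    (R := ℤ_[p]) P)
  have h1 : (p : ℤ_[p]) ∈ P.comap (algebraMap ℤ_[p] ↥(intNums ι)) := by
    rw [h, PadicInt.maximalIdeal_eq_span_p]
    exact Ideal.mem_span_singleton_self _
  rw [Ideal.mem_comap, map_natCast] at h1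
  exact h1

/-- The cusp forms of the six one-dimensional weights. -/
theorem exists_cusp_eigen (hk : k ∈ FA.DeltaFamily.sixWeights) (ι : ℚ_[p] →+* ℂ)
    (ha : ¬(p : ℤ) ∣ coeff p (FA.DeltaFamily.cuspInt k)) :
    ∃ F : ModularForm 𝒮ℒ (k : ℤ), IsEigenForm F ∧ IsUnitAt ι F ∧
      ∀ n, (qExpansion 1 ⇑F).coeff n = ((coeff n (FA.DeltaFamily.cuspInt k) : ℤ) : ℂ) := by
  obtain ⟨F, hF⟩ := FA.DeltaFamily.isRatForm_cuspInt hk
  have hc : ∀ n, (qExpansion 1 ⇑F).coeff n =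
      ((coeff n (FA.DeltaFamily.cuspInt k) : ℤ) : ℂ) := fun n => by
    rw [hF, coeff_map, coeff_map, eq_intCast, eq_ratCast, Rat.cast_intCast]
  refine ⟨F, ⟨by rw [hc, FA.DeltaFamily.coeff_cuspInt_one, Int.cast_one], fun l hl n => ?_⟩, ?_, hc⟩
  · have h := congrArg (fun S => ((coeff n S : ℤ) : ℂ)) (FA.DeltaFamily.cuspInt_hecke hk hl)
    simp only [coeff_tSer, coeff_C_mul, apply_ite (Int.cast (R := ℂ)), Int.cast_add, Int.cast_mul,
      Int.cast_pow, Int.cast_natCast, Int.cast_zero] at h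
    simp only [hc]
    exact h
  · obtain ⟨u, hu⟩ : IsUnit ((coeff p (FA.DeltaFamily.cuspInt k) : ℤ) : ℤ_[p]) := by
      refine PadicInt.isUnit_iff.2 (le_antisymm (PadicInt.norm_le_one _) (not_lt.1 fun hlt => ?_))
      exact ha (PadicInt.norm_int_lt_one_iff_dvd _ |>.1 hlt)
    have e : ι (((u : ℤ_[p]) : ℚ_[p])) = (qExpansion 1 ⇑F).coeff p := by
      rw [hc, hu, PadicInt.coe_intCast, map_intCast]
    have h1 : iotaInt ι u * iotaInt ι ↑u⁻¹ = 1 := by rw [← map_mul, Units.mul_inv, map_one]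
    have e' : iotaInt ι u = (qExpansion 1 ⇑F).coeff p := e
    refine ⟨?_, ?_, ?_⟩
    · exact e' ▸ left_ne_zero_of_mul_eq_one h1
    · exact e' ▸ RingHom.isIntegralElem_map _
    · rw [← e', inv_eq_of_mul_eq_one_right h1]
      exact RingHom.isIntegralElem_map _

/-- The residual systems of the ordinary eigenforms of weight `k`. -/
def residualSystems (ι : ℚ_[p] →+* ℂ) (P : Ideal ↥(intNums ι)) (k : ℕ) :
    Set (ℕ → ↥(intNums ι) ⧸ P) :=
  {f | ∃ F : ModularForm 𝒮ℒ (k : ℤ), IsEigenForm F ∧ IsUnitAt ι F ∧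
    ∀ n, ∃ b : ↥(intNums ι), (b : ℂ) = (qExpansion 1 ⇑F).coeff (n + 1) ∧
      Ideal.Quotient.mk P b = f n}

theorem residualSystems_finite (h5 : 5 ≤ p) (hk : 3 ≤ k) (ι : ℚ_[p] →+* ℂ)
    (P : Ideal ↥(intNums ι)) : (residualSystems ι P k).Finite ∧
      (residualSystems ι P k).ncard ≤ Module.finrank ℚ_[p] ↥(ordPart (natWeight p k)) := by
  obtain ⟨hfin, hcard⟩ := ordinary_eigen_count (k := k) h5 hk ι
  obtain ⟨φ, hφ⟩ : ∃ φ : OrdForms ι k → ℕ → ↥(intNums ι) ⧸ P, ∀ F n, φ F n =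
      Ideal.Quotient.mk P ⟨_, coeff_mem_intNums h5 hk ι F.2.1 (n.succ_pos)⟩ :=
    ⟨_, fun _ _ => rfl⟩
  have hsub : residualSystems ι P k ⊆ Set.range φ := fun f hf => by
    obtain ⟨F, hF, hu, hb⟩ := hf
    refine ⟨⟨F, hF, hu⟩, funext fun n => ?_⟩
    obtain ⟨b, hb1, hb2⟩ := hb n
    rw [hφ, ← hb2]
    exact congrArg _ (Subtype.ext hb1.symm)
  refine ⟨(Set.finite_range φ).subset hsub, (Set.ncard_le_ncard hsub (Set.finite_range φ)).trans ?_⟩
  rw [(finrank_ordPart (κ := natWeight p k) h5 hk rfl).2, ← hcard, ← Nat.card_coe_set_eq]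
  exact Nat.card_le_card_of_surjective _ Set.rangeFactorization_surjective

theorem residualSystems_subset (h5 : 5 ≤ p) (hk : 3 ≤ k) (hm : 3 ≤ m)
    (hc : (k : ZMod (p - 1)) = (m : ZMod (p - 1))) (ι : ℚ_[p] →+* ℂ)
    (P : Ideal ↥(intNums ι)) [P.IsPrime] (hp : (p : ↥(intNums ι)) ∈ P) :
    residualSystems ι P k ⊆ residualSystems ι P m := fun f hf => by
  obtain ⟨F, hF, hu, hb⟩ := hf
  obtain ⟨G, hG, hGu, hGF⟩ := exists_congruent h5 hk hm hc ι P hp hF hu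
  refine ⟨G, hG, hGu, fun n => ?_⟩
  obtain ⟨b, hb1, hb2⟩ := hb n
  obtain ⟨u, hu', hue⟩ := hGF (n + 1) n.succ_pos
  refine ⟨b - u, by rw [AddSubgroupClass.coe_sub, hb1, hue, sub_sub_cancel], ?_⟩
  rw [map_sub, hb2, Ideal.Quotient.eq_zero_iff_mem.2 hu', sub_zero]

end FA.OrdinaryCongruence

end
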