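import Fermat.Agent.OrdinaryCongruence.Reduction

/-!
# Lifting systems modulo a prime over `p`

A system of eigenvalues in `B / P`, `B` the numbers integral over `ι(ℤ_p)`, that vanishes where
the polynomials in the `T_l` act as zero modulo `p` on the ordinary forms of weight `m` is the
reduction of an ordinary eigenform of weight `m`: the product of the kernels of those eigenforms
lies in the kernel of the system, a prime.
-/

set_option autoImplicit false
set_option linter.unusedSectionVars false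

noncomputable section

open UpperHalfPlane hiding I
open PowerSeries
open scoped MatrixGroups ModularForm

namespace FA.OrdinaryCongruence

open FA.PadicForms FA.OrdinaryProj FA.LambdaHecke FA.LevelOneControl FA.OrdinaryReduced
  FA.OrdinaryCount

variable {p : ℕ} [Fact p.Prime] {k m : ℕ}

/-- The numbers integral over `ι(ℤ_p)`. -/
def intNums (ι : ℚ_[p] →+* ℂ) : Subring ℂ :=
  letI := (iotaInt ι).toAlgebra
  (integralClosure ℤ_[p] ℂ).toSubring

theorem mem_intNums {ι : ℚ_[p] →+* ℂ} {z : ℂ} :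
    z ∈ intNums ι ↔ (iotaInt ι).IsIntegralElem z := Iff.rfl

/-- `ℤ_p` in the integral numbers. -/
def intEmb (ι : ℚ_[p] →+* ℂ) : ℤ_[p] →+* ↥(intNums ι) :=
  (iotaInt ι).codRestrict (intNums ι) fun _ => RingHom.isIntegralElem_map _

theorem coe_intEmb (ι : ℚ_[p] →+* ℂ) (x : ℤ_[p]) :
    ((intEmb ι x : ↥(intNums ι)) : ℂ) = ι (x : ℚ_[p]) := rfl

theorem char_mem (h5 : 5 ≤ p) (hk : 3 ≤ k) {ι : ℚ_[p] →+* ℂ} (χ : Chars ι k) (r : HeckePoly) :
    χ.1 (heckeHom p hk r) ∈ intNums ι :=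
  isIntegralElem_of_integral h5 hk χ _ fun _ hx => supLe_heckeHom hk r hx

/-- The system of a character. -/
def charInt (h5 : 5 ≤ p) (hk : 3 ≤ k) {ι : ℚ_[p] →+* ℂ} (χ : Chars ι k) :
    HeckePoly →+* ↥(intNums ι) :=
  (χ.1.comp (heckeHom p hk)).codRestrict (intNums ι) (char_mem h5 hk χ)

theorem coe_charInt (h5 : 5 ≤ p) (hk : 3 ≤ k) {ι : ℚ_[p] →+* ℂ} (χ : Chars ι k) (r : HeckePoly) :
    ((charInt h5 hk χ r : ↥(intNums ι)) : ℂ) = χ.1 (heckeHom p hk r) := rfl

theorem exists_char_of_eigen (hk : 3 ≤ k) (ι : ℚ_[p] →+* ℂ) {F : ModularForm 𝒮ℒ (k : ℤ)}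
    (hF : IsEigenForm F) : ∃ χ : Chars ι k, ∀ l : {l : ℕ // l.Prime},
      χ.1 (heckeHom p hk (MvPolynomial.X l)) = (qExpansion 1 ⇑F).coeff l.1 := by
  obtain ⟨χ, hχ⟩ := exists_char ι hF
  exact ⟨χ, fun l => char_apply hF hχ l.2 (act_heckeHom_X hk l)⟩

/-- If a polynomial acts as zero modulo `p`, an ordinary character takes a multiple of `p`. -/
theorem exists_eq_p_mul (h5 : 5 ≤ p) (hk : 3 ≤ k) {ι : ℚ_[p] →+* ℂ} {χ : Chars ι k}
    (hχ : ∀ T : ↥(lvlAlg p k), IsTp T → IsIntUnit ι (χ.1 T)) {r : HeckePoly}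
    (hr : ∀ x : ↥(qpSpace p k), SupLe (x : PowerSeries ℚ_[p]) 1 →
      redOrd (act (heckeHom p hk r) x) = 0) :
    ∃ c : ↥(intNums ι), charInt h5 hk χ r = (p : ↥(intNums ι)) * c := by
  obtain ⟨T, hT⟩ := exists_tp (p := p) hk
  obtain ⟨x, G, N, hx, hxe, hG, hli, hspan, -, -⟩ := exists_lift_gens (p := p) (k := k) h5
  obtain ⟨z, hz⟩ : ∃ z : ↥(lvlAlg p k), z = (p : ℚ_[p])⁻¹ • heckeHom p hk r := ⟨_, rfl⟩
  have hzx : ∀ j, SupLe (ordProj p (act z (x j) : PowerSeries ℚ_[p])) 1 := fun j => by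
    obtain ⟨L, -, hL, -⟩ := exists_int h5 (supLe_heckeHom hk r (hx j))
    have h0 := hr _ (hx j)
    rw [redOrd_eq hL, redSer_eq_zero] at h0
    obtain ⟨M, rfl⟩ := h0
    rw [show act z (x j) = (p : ℚ_[p])⁻¹ • act (heckeHom p hk r) (x j) by rw [hz]; rfl,
      Submodule.coe_smul, PowerSeries.smul_eq_C_mul,
      ordProj_C_mul h5 (isPadicForm_of_mem h5 (act (heckeHom p hk r) (x j)).2), hL, map_mul,
      map_natCast, ← mul_assoc, ← map_natCast (C : ℚ_[p] →+* PowerSeries ℚ_[p]) p, ← map_mul,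
      inv_mul_cancel₀ (Nat.cast_ne_zero.2 (Fact.out : p.Prime).ne_zero), map_one, one_mul]
    exact supLe_toQps M
  obtain ⟨P, hP, hP0⟩ := exists_monic_mem h5 hk hxe hG hli hspan z hzx
  refine ⟨⟨χ.1 z, isIntegralElem_char χ z hP (kills_of_isIntUnit h5 hk hT (hχ T hT) hP0)⟩,
    Subtype.ext ?_⟩
  have e : χ.1 (heckeHom p hk r) = (p : ℂ) * χ.1 z := by
    rw [hz, Algebra.smul_def, map_mul, χ.2, map_inv₀, map_natCast, ← mul_assoc,
      mul_inv_cancel₀ (Nat.cast_ne_zero.2 (Fact.out : p.Prime).ne_zero), one_mul]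
  exact e

/-- The ordinary eigenforms. -/
abbrev OrdForms (ι : ℚ_[p] →+* ℂ) (k : ℕ) : Type :=
  {F : ModularForm 𝒮ℒ (k : ℤ) // IsEigenForm F ∧ IsUnitAt ι F}

/-- Characters as many as the dimension span the functionals. -/
theorem exists_span_chars {K A L ν : Type*} [Field K] [CommRing A] [Algebra K A] [Field L]
    [Fintype ν] (σ : K →+* L) (J : Ideal A) [Module.Finite K (A ⧸ J)] (χ : ν → A →+* L)
    (hσ : ∀ i c, χ i (algebraMap K A c) = σ c) (hinj : Function.Injective χ)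
    (hkill : ∀ i, ∀ a ∈ J, χ i a = 0) (hcard : Fintype.card ν = Module.finrank K (A ⧸ J))
    (f : A →ₗ[K] K) (hf : ∀ a ∈ J, f a = 0) :
    ∃ μ : ν → L, ∀ a, σ (f a) = ∑ i, μ i * χ i a := by
  classical
  obtain ⟨b, -⟩ : ∃ b : Module.Basis (Fin (Module.finrank K (A ⧸ J))) K (A ⧸ J), True :=
    ⟨Module.finBasis _ _, trivial⟩
  choose a ha using fun j => Ideal.Quotient.mk_surjective (b j)
  have hres : ∀ z, z - ∑ j, b.repr (Ideal.Quotient.mk J z) j • a j ∈ J := fun z => by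
    rw [← Ideal.Quotient.eq_zero_iff_mem, map_sub, map_sum, sub_eq_zero]
    conv_lhs => rw [← b.sum_repr (Ideal.Quotient.mk J z)]
    refine Finset.sum_congr rfl fun j _ => ?_
    rw [← ha j]
    rfl
  have hev : ∀ i z, χ i z = ∑ j, σ (b.repr (Ideal.Quotient.mk J z) j) * χ i (a j) := fun i z => by
    have h := hkill i _ (hres z)
    rw [map_sub, map_sum, sub_eq_zero] at h
    rw [h]
    exact Finset.sum_congr rfl fun j _ => by rw [Algebra.smul_def, map_mul, hσ]
  have h0 := (linearIndependent_monoidHom A L).comp (fun i : ν => (χ i).toMonoidHom)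
    fun i j e => hinj (RingHom.ext fun z => DFunLike.congr_fun e z)
  have hli : LinearIndependent L (fun (i : ν) (j : Fin (Module.finrank K (A ⧸ J))) =>
      χ i (a j)) := by
    rw [Fintype.linearIndependent_iff] at h0 ⊢
    intro x hx
    refine h0 x (funext fun z => ?_)
    rw [Finset.sum_apply, Pi.zero_apply]
    show ∑ i, x i * χ i z = 0
    simp only [hev _ z, Finset.mul_sum]
    rw [Finset.sum_comm]
    refine Finset.sum_eq_zero fun j _ => ?_
    have h := congrFun hx j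
    simp only [Finset.sum_apply, Pi.smul_apply, smul_eq_mul, Pi.zero_apply] at h
    rw [Finset.sum_congr rfl fun i _ => mul_left_comm (x i) _ _, ← Finset.mul_sum, h, mul_zero]
  have hmem : (fun j => σ (f (a j))) ∈ Submodule.span L
      (Set.range fun (i : ν) j => χ i (a j)) := by
    rw [hli.span_eq_top_of_card_eq_finrank' (hcard.trans (Module.finrank_fin_fun L).symm)]
    exact Submodule.mem_top
  obtain ⟨μ, hμ⟩ := (Submodule.mem_span_range_iff_exists_fun _).1 hmem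
  refine ⟨μ, fun z => ?_⟩
  have h := hf _ (hres z)
  rw [map_sub, map_sum, sub_eq_zero] at h
  rw [h, map_sum]
  simp only [hev _ z, Finset.mul_sum]
  rw [Finset.sum_comm]
  refine Finset.sum_congr rfl fun j _ => ?_
  rw [map_smul, smul_eq_mul, map_mul, ← congrFun hμ j, Finset.sum_apply, Finset.mul_sum]
  exact Finset.sum_congr rfl fun i _ => by rw [Pi.smul_apply, smul_eq_mul, mul_left_comm]

/-- A functional that factors through the ordinary part is a combination of ordinary characters. -/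
theorem exists_combination_chars (h5 : 5 ≤ p) (hk : 3 ≤ k) (ι : ℚ_[p] →+* ℂ)
    [Fintype (OrdForms ι k)] {χ : OrdForms ι k → Chars ι k}
    (hχ : ∀ (F : OrdForms ι k) (l : {l : ℕ // l.Prime}),
      (χ F).1 (heckeHom p hk (MvPolynomial.X l)) = (qExpansion 1 ⇑F.1).coeff l.1)
    (f : ↥(lvlAlg p k) →ₗ[ℚ_[p]] ℚ_[p])
    (hf : ∀ a, (∀ y, ordProj p (act a y : PowerSeries ℚ_[p]) = 0) → f a = 0) :
    ∃ μ : OrdForms ι k → ℂ, ∀ a, ι (f a) = ∑ F, μ F * (χ F).1 a := by
  have := finite_lvlAlg (p := p) (k := k)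
  obtain ⟨T, hT⟩ := exists_tp (p := p) hk
  obtain ⟨J, hJ, hJdim, -⟩ := exists_ordIdeal (p := p) (k := k) h5 hk
  have hq : Module.Finite ℚ_[p] (↥(lvlAlg p k) ⧸ J) :=
    Module.Finite.of_surjective (Ideal.Quotient.mkₐ ℚ_[p] J).toLinearMap
      (Ideal.Quotient.mkₐ_surjective ℚ_[p] J)
  have hkill : ∀ F, ∀ a ∈ J, (χ F).1 a = 0 := fun F a ha => by
    refine kills_of_isIntUnit h5 hk hT ?_ ((hJ a).1 ha)
    have e : T = heckeHom p hk (MvPolynomial.X ⟨p, Fact.out⟩) := Subtype.ext (LinearMap.ext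
      fun x => Subtype.ext ((hT x).trans (act_heckeHom_X hk ⟨p, Fact.out⟩ x).symm))
    rw [e, hχ]
    exact F.2.2
  have hinj : Function.Injective fun F => (χ F).1 := fun F G e => Subtype.ext
    (eigen_ext (by omega) F.2.1 G.2.1 fun l hl => by
      rw [← hχ F ⟨l, hl⟩, ← hχ G ⟨l, hl⟩]
      exact RingHom.congr_fun e _)
  have hcard : Fintype.card (OrdForms ι k) =
      Module.finrank ℚ_[p] (↥(lvlAlg p k) ⧸ J) := by
    rw [← Nat.card_eq_fintype_card, (ordinary_eigen_count h5 hk ι).2, hJdim,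
      (finrank_ordPart h5 hk rfl).2]
  exact exists_span_chars ι J (fun F => (χ F).1) (fun F => (χ F).2) hinj hkill hcard f
    fun a ha => hf a ((hJ a).1 ha)

/-- A polynomial that kills all ordinary eigenforms of weight `m` kills the system. -/
theorem extended_eq_zero (h5 : 5 ≤ p) (hm : 3 ≤ m) {ι : ℚ_[p] →+* ℂ}
    [Fintype (OrdForms ι m)] {χ : OrdForms ι m → Chars ι m}
    (hχ : ∀ (F : OrdForms ι m) (l : {l : ℕ // l.Prime}),
      (χ F).1 (heckeHom p hm (MvPolynomial.X l)) = (qExpansion 1 ⇑F.1).coeff l.1)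
    (P : Ideal ↥(intNums ι)) (hp : (p : ↥(intNums ι)) ∈ P)
    (ψ : HeckePoly →+* ↥(intNums ι) ⧸ P)
    (hψ : ∀ r, (∀ y : ↥(qpSpace p m), SupLe (y : PowerSeries ℚ_[p]) 1 →
      redOrd (act (heckeHom p hm r) y) = 0) → ψ r = 0)
    (I : Finset ({l : ℕ // l.Prime} →₀ ℕ)) (β : ({l : ℕ // l.Prime} →₀ ℕ) → ↥(intNums ι))
    (hz : ∀ F, ∑ d ∈ I, β d * charInt h5 hm (χ F) (MvPolynomial.monomial d 1) = 0) :
    ∑ d ∈ I, Ideal.Quotient.mk P (β d) * ψ (MvPolynomial.monomial d 1) = 0 := by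
  classical
  have hnat : ∀ a b : ℕ, (a : ZMod p) = b → (a : ↥(intNums ι) ⧸ P) = b := fun a b h => by
    have hp0 : (p : ↥(intNums ι) ⧸ P) = 0 := by
      rw [← map_natCast (Ideal.Quotient.mk P), Ideal.Quotient.eq_zero_iff_mem]
      exact hp
    rw [ZMod.natCast_eq_natCast_iff'] at h
    rw [← Nat.mod_add_div a p, ← Nat.mod_add_div b p, h]
    simp [hp0]
  obtain ⟨cast, hcast⟩ : ∃ cast : ZMod p →+* ↥(intNums ι) ⧸ P,
      ∀ v, cast v = ((v.val : ℕ) : ↥(intNums ι) ⧸ P) :=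
    ⟨{ toFun := fun v => ((v.val : ℕ) : ↥(intNums ι) ⧸ P)
       map_one' := by rw [ZMod.val_one, Nat.cast_one]
       map_mul' := fun u v => by
        rw [← Nat.cast_mul]
        exact hnat _ _ (by simp)
       map_zero' := by rw [ZMod.val_zero, Nat.cast_zero]
       map_add' := fun u v => by
        rw [← Nat.cast_add]
        exact hnat _ _ (by simp) }, fun _ => rfl⟩
  have hemb : ∀ z : ℤ_[p], Ideal.Quotient.mk P (intEmb ι z) = cast (PadicInt.toZMod z) := fun z => by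
    obtain ⟨v, hv⟩ : ∃ v, v = PadicInt.toZMod z := ⟨_, rfl⟩
    obtain ⟨w, hw⟩ : (p : ℤ_[p]) ∣ z - (v.val : ℤ_[p]) := by
      rw [← Ideal.mem_span_singleton, ← PadicInt.maximalIdeal_eq_span_p, ← PadicInt.ker_toZMod,
        RingHom.mem_ker, map_sub, map_natCast, ZMod.natCast_zmod_val, hv, sub_self]
    rw [← hv, hcast, sub_eq_iff_eq_add.1 hw, map_add, map_mul, map_natCast, map_natCast, map_add,
      map_natCast, Ideal.Quotient.eq_zero_iff_mem.2 (P.mul_mem_right _ hp), zero_add]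
  -- coordinates on the ordinary forms modulo `p`
  have := finite_ordModP (p := p) h5 m
  choose y hy hyv using fun v : ↥(ordModP p m) => exists_lift_vec h5 v.2
  choose idx hidx using fun w : ↥(ordModP p m) =>
    show ∃ n, (w : PowerSeries (ZMod p)) ≠ 0 → coeff n (w : PowerSeries (ZMod p)) ≠ 0 by
      by_cases h : (w : PowerSeries (ZMod p)) = 0
      · exact ⟨0, fun e => absurd h e⟩
      · obtain ⟨n, hn⟩ := (PowerSeries.exists_coeff_ne_zero_iff_ne_zero).2 h
        exact ⟨n, fun _ => hn⟩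
  choose L hLf hL hL' using fun (r : HeckePoly) (v : ↥(ordModP p m)) =>
    exists_int h5 (supLe_heckeHom hm r (hy v))
  obtain ⟨κ, hκ⟩ : ∃ κ : HeckePoly → ↥(ordModP p m) × ↥(ordModP p m) → ℤ_[p],
      ∀ r q, κ r q = coeff (idx q.2) (L r q.1) := ⟨_, fun _ _ => rfl⟩
  have hκadd : ∀ r s q, κ (r + s) q = κ r q + κ s q := fun r s q => by
    rw [hκ, hκ, hκ, ← map_add]
    congr 1
    refine toQps_injective ?_
    rw [← hL, map_add (toQps p), ← hL, ← hL, map_add (heckeHom p hm),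
      show act (heckeHom p hm r + heckeHom p hm s) (y q.1) =
        act (heckeHom p hm r) (y q.1) + act (heckeHom p hm s) (y q.1) from rfl, Submodule.coe_add,
      ordProj_add h5 (isPadicForm_of_mem h5 (Subtype.coe_prop _))
        (isPadicForm_of_mem h5 (Subtype.coe_prop _))]
  obtain ⟨κb, hκb⟩ : ∃ κb : HeckePoly →+ (↥(ordModP p m) × ↥(ordModP p m) → ZMod p),
      ∀ r q, κb r q = PadicInt.toZMod (κ r q) :=
    ⟨AddMonoidHom.mk' (fun r q => PadicInt.toZMod (κ r q))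
      fun r s => funext fun q => by rw [Pi.add_apply, hκadd, map_add], fun _ _ => rfl⟩
  have hzero : ∀ r, κb r = 0 → ψ r = 0 := fun r hr => hψ r fun x hx => by
    obtain ⟨v, hv⟩ : ∃ v : ↥(ordModP p m), (v : PowerSeries (ZMod p)) = redOrd x :=
      ⟨⟨_, redOrd_mem h5 hm rfl hx⟩, rfl⟩
    rw [redOrd_congr h5 hm hm rfl r hx (hy v) ((hyv v).trans hv).symm]
    obtain ⟨w, hw⟩ : ∃ w : ↥(ordModP p m),
        (w : PowerSeries (ZMod p)) = redOrd (act (heckeHom p hm r) (y v)) :=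
      ⟨⟨_, redOrd_mem h5 hm rfl (supLe_heckeHom hm r (hy v))⟩, rfl⟩
    rw [← hw]
    by_contra hne
    refine hidx w hne ?_
    have h := congrFun hr (v, w)
    rw [hκb, hκ, Pi.zero_apply, ← coeff_redSer, ← redOrd_eq (hL r v), ← hw] at h
    exact h
  -- the system is linear in the coordinates
  obtain ⟨V, hV⟩ : ∃ V : Submodule (ZMod p) (↥(ordModP p m) × ↥(ordModP p m) → ZMod p),
      V = AddSubgroup.toZModSubmodule p κb.range := ⟨_, rfl⟩
  have : Module.Finite (ZMod p) ↥V := Module.Finite.of_finite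
  obtain ⟨B, -⟩ : ∃ B : Module.Basis (Fin (Module.finrank (ZMod p) ↥V)) (ZMod p) ↥V, True :=
    ⟨Module.finBasis _ _, trivial⟩
  choose rt hrt using fun t =>
    show (B t : ↥(ordModP p m) × ↥(ordModP p m) → ZMod p) ∈ κb.range by
      exact hV.le (B t).2
  choose lam hlam using fun t => LinearMap.exists_extend (B.coord t)
  obtain ⟨K, hK⟩ : ∃ K : ↥(ordModP p m) × ↥(ordModP p m) → ↥(intNums ι) ⧸ P,
      K = fun q => ∑ t, cast (lam t (Pi.single q 1)) * ψ (rt t) := ⟨_, rfl⟩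
  let : Fintype (↥(ordModP p m) × ↥(ordModP p m)) := Fintype.ofFinite _
  have hlin : ∀ r, ψ r = ∑ q, cast (κb r q) * K q := fun r => by
    have hmem : κb r ∈ V := by
      rw [hV]
      exact ⟨r, rfl⟩
    obtain ⟨r', hr'⟩ : ∃ r', r' = r - ∑ t, (B.repr ⟨κb r, hmem⟩ t).val • rt t := ⟨_, rfl⟩
    have h0 : κb r' = 0 := by
      rw [hr', map_sub, map_sum, sub_eq_zero]
      have e := congrArg (fun z : ↥V => (z : ↥(ordModP p m) × ↥(ordModP p m) → ZMod p))
        (B.sum_repr ⟨κb r, hmem⟩)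
      simp only [Submodule.coe_sum, Submodule.coe_smul] at e
      conv_lhs => rw [← e]
      refine Finset.sum_congr rfl fun t _ => ?_
      rw [map_nsmul, hrt, ← Nat.cast_smul_eq_nsmul (ZMod p), ZMod.natCast_zmod_val]
    have hcoord : ∀ t, B.repr ⟨κb r, hmem⟩ t = ∑ q, κb r q * lam t (Pi.single q 1) := fun t => by
      rw [← B.coord_apply, ← hlam t, LinearMap.comp_apply, Submodule.subtype_apply]
      refine ((congrArg (lam t) (pi_eq_sum_univ' (κb r))).trans (map_sum (lam t) _ _)).trans ?_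
      exact Finset.sum_congr rfl fun q _ => by rw [map_smul, smul_eq_mul]
    have h1 := hzero r' h0
    rw [hr', map_sub, map_sum, sub_eq_zero] at h1
    rw [h1, hK]
    simp only [Finset.mul_sum]
    rw [Finset.sum_comm]
    refine Finset.sum_congr rfl fun t _ => ?_
    rw [nsmul_eq_mul, map_mul, map_natCast, ← hcast, hcoord, map_sum, Finset.sum_mul]
    exact Finset.sum_congr rfl fun q _ => by rw [map_mul, mul_assoc]
  -- the coordinates are combinations of ordinary characters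
  have hcomb : ∀ q, ∑ d ∈ I, β d * intEmb ι (κ (MvPolynomial.monomial d 1) q) = 0 := fun q => by
    obtain ⟨g, -, hge⟩ := exists_eW (p := p) (k := m) h5 hm
    obtain ⟨f, hf⟩ : ∃ f : ↥(lvlAlg p m) →ₗ[ℚ_[p]] ℚ_[p],
        ∀ a, f a = coeff (idx q.2) (ordProj p (act a (y q.1) : PowerSeries ℚ_[p])) :=
      ⟨((coeff (idx q.2)).comp ((ordPart (natWeight p m)).subtype.comp g)).comp
          ((LinearMap.applyₗ (y q.1)).comp (lvlAlg p m).val.toLinearMap), fun a => by
        show coeff (idx q.2) (g (act a (y q.1)) : PowerSeries ℚ_[p]) = _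
        rw [hge]⟩
    obtain ⟨μ, hμ⟩ := exists_combination_chars h5 hm ι hχ f fun a ha => by
      rw [hf, ha, map_zero]
    refine Subtype.ext ?_
    rw [AddSubmonoidClass.coe_finsetSum, ZeroMemClass.coe_zero]
    have hval : ∀ d, ι ((κ (MvPolynomial.monomial d 1) q : ℤ_[p]) : ℚ_[p]) =
        ∑ F, μ F * (χ F).1 (heckeHom p hm (MvPolynomial.monomial d 1)) := fun d => by
      rw [← hμ, hf, hL, coeff_toQps, hκ]
    simp only [Subring.coe_mul, coe_intEmb, hval, Finset.mul_sum]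
    rw [Finset.sum_comm]
    refine Finset.sum_eq_zero fun F _ => ?_
    have h := congrArg (fun z : ↥(intNums ι) => (z : ℂ)) (hz F)
    simp only [AddSubmonoidClass.coe_finsetSum, Subring.coe_mul, coe_charInt,
      ZeroMemClass.coe_zero] at h
    rw [Finset.sum_congr rfl fun d _ => mul_left_comm ((β d : ↥(intNums ι)) : ℂ) (μ F) _,
      ← Finset.mul_sum, h, mul_zero]
  simp only [hlin, Finset.mul_sum]
  rw [Finset.sum_comm]
  refine Finset.sum_eq_zero fun q _ => ?_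
  have h := congrArg (Ideal.Quotient.mk P) (hcomb q)
  rw [map_sum, map_zero] at h
  rw [← zero_mul (K q), ← h, Finset.sum_mul]
  exact Finset.sum_congr rfl fun d _ => by rw [map_mul, hemb, hκb, mul_assoc]

/-- **Lifting.** -/
theorem exists_lift_system (h5 : 5 ≤ p) (hm : 3 ≤ m) (ι : ℚ_[p] →+* ℂ)
    (P : Ideal ↥(intNums ι)) [P.IsPrime] (hp : (p : ↥(intNums ι)) ∈ P)
    (ψ : HeckePoly →+* ↥(intNums ι) ⧸ P)
    (hψ : ∀ r, (∀ y : ↥(qpSpace p m), SupLe (y : PowerSeries ℚ_[p]) 1 →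
      redOrd (act (heckeHom p hm r) y) = 0) → ψ r = 0) :
    ∃ G : ModularForm 𝒮ℒ (m : ℤ), IsEigenForm G ∧ IsUnitAt ι G ∧
      ∀ l : {l : ℕ // l.Prime}, ∃ b : ↥(intNums ι),
        (b : ℂ) = (qExpansion 1 ⇑G).coeff l.1 ∧ Ideal.Quotient.mk P b = ψ (MvPolynomial.X l) := by
  classical
  obtain ⟨hfin, -⟩ := ordinary_eigen_count (k := m) h5 hm ι
  let : Fintype (OrdForms ι m) := Fintype.ofFinite _
  choose χ hχ using fun F : OrdForms ι m => exists_char_of_eigen hm ι F.2.1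
  obtain ⟨Ψ, hΨC, hΨX⟩ : ∃ Ψ : MvPolynomial {l : ℕ // l.Prime} ↥(intNums ι) →+* ↥(intNums ι) ⧸ P,
      (∀ b, Ψ (MvPolynomial.C b) = Ideal.Quotient.mk P b) ∧
      ∀ l, Ψ (MvPolynomial.X l) = ψ (MvPolynomial.X l) :=
    ⟨MvPolynomial.eval₂Hom (Ideal.Quotient.mk P) fun l => ψ (MvPolynomial.X l),
      fun b => MvPolynomial.eval₂Hom_C _ _ b, fun l => MvPolynomial.eval₂Hom_X' _ _ l⟩
  obtain ⟨Ξ, hΞC, hΞX⟩ : ∃ Ξ : OrdForms ι m →
      MvPolynomial {l : ℕ // l.Prime} ↥(intNums ι) →+* ↥(intNums ι),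
      (∀ F b, Ξ F (MvPolynomial.C b) = b) ∧
      ∀ F l, Ξ F (MvPolynomial.X l) = charInt h5 hm (χ F) (MvPolynomial.X l) :=
    ⟨fun F => MvPolynomial.eval₂Hom (RingHom.id _)
        fun l => charInt h5 hm (χ F) (MvPolynomial.X l),
      fun F b => MvPolynomial.eval₂Hom_C _ _ b, fun F l => MvPolynomial.eval₂Hom_X' _ _ l⟩
  have hmono : ∀ (d : {l : ℕ // l.Prime} →₀ ℕ) (b : ↥(intNums ι)),
      MvPolynomial.monomial d b = MvPolynomial.C b *
        MvPolynomial.map (Int.castRingHom ↥(intNums ι)) (MvPolynomial.monomial d 1) := fun d b => by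
    rw [MvPolynomial.map_monomial, MvPolynomial.C_mul_monomial, map_one, mul_one]
  have hΨ : Ψ.comp (MvPolynomial.map (Int.castRingHom ↥(intNums ι))) = ψ :=
    MvPolynomial.ringHom_ext (fun a => by simp) fun l => by
      rw [RingHom.comp_apply, MvPolynomial.map_X, hΨX]
  have hΞ : ∀ F, (Ξ F).comp (MvPolynomial.map (Int.castRingHom ↥(intNums ι))) =
      charInt h5 hm (χ F) := fun F =>
    MvPolynomial.ringHom_ext (fun a => by simp) fun l => by
      rw [RingHom.comp_apply, MvPolynomial.map_X, hΞX]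
  have hker : (RingHom.ker Ψ).IsPrime := RingHom.ker_isPrime _
  have hle : (Finset.univ.inf fun F => RingHom.ker (Ξ F)) ≤ RingHom.ker Ψ := fun s hs => by
    simp only [Submodule.mem_finsetInf, Finset.mem_univ, true_implies, RingHom.mem_ker] at hs
    rw [RingHom.mem_ker, s.as_sum, map_sum]
    have e : ∀ d, Ψ (MvPolynomial.monomial d (MvPolynomial.coeff d s)) =
        Ideal.Quotient.mk P (MvPolynomial.coeff d s) * ψ (MvPolynomial.monomial d 1) := fun d => by
      rw [hmono, map_mul, hΨC, ← RingHom.comp_apply, hΨ]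
    rw [Finset.sum_congr rfl fun d _ => e d]
    refine extended_eq_zero h5 hm hχ P hp ψ hψ s.support _ fun F => ?_
    have h := hs F
    rw [s.as_sum, map_sum] at h
    refine (Finset.sum_congr rfl fun d _ => ?_).trans h
    rw [hmono, map_mul, hΞC, ← RingHom.comp_apply, hΞ]
  obtain ⟨F, -, hF⟩ := (Ideal.IsPrime.inf_le' hker).1 hle
  refine ⟨F.1, F.2.1, F.2.2, fun l => ⟨charInt h5 hm (χ F) (MvPolynomial.X l),
    by rw [coe_charInt, hχ], ?_⟩⟩
  have h : MvPolynomial.X l - MvPolynomial.C (charInt h5 hm (χ F) (MvPolynomial.X l)) ∈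
      RingHom.ker Ψ := hF (by rw [RingHom.mem_ker, map_sub, hΞX, hΞC, sub_self])
  rw [RingHom.mem_ker, map_sub, hΨX, hΨC, sub_eq_zero] at h
  exact h.symm

end FA.OrdinaryCongruence

end
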