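import Fermat.Agent.OrdinaryCount.Cases
import Fermat.Agent.LevelOneControl.Eigen
import Mathlib.Algebra.MvPolynomial.CommRing

/-!
# The Hecke polynomials on the ordinary forms modulo `p`

The reduction of the projection of an integral form of weight `k` moves under a polynomial in the
`T_l` in a way that depends only on `k` modulo `p - 1`.
-/

set_option autoImplicit false
set_option linter.unusedSectionVars false

noncomputable section

open PowerSeries

namespace FA.OrdinaryCongruence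

open FA.PadicForms FA.OrdinaryProj FA.LambdaHecke FA.LevelOneControl FA.DeltaFamily
  FA.OrdinaryCount

variable {p : ℕ} [Fact p.Prime] {k m : ℕ}

/-- The reduction of the projection. -/
def redOrd (x : ↥(qpSpace p k)) : PowerSeries (ZMod p) :=
  PowerSeries.mk fun n =>
    if h : ‖coeff n (ordProj p (x : PowerSeries ℚ_[p]))‖ ≤ 1 then
      PadicInt.toZMod (⟨_, h⟩ : ℤ_[p]) else 0

theorem redOrd_eq {x : ↥(qpSpace p k)} {L : PowerSeries ℤ_[p]}
    (h : ordProj p (x : PowerSeries ℚ_[p]) = toQps p L) : redOrd x = redSer p L := by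
  refine PowerSeries.ext fun n => ?_
  have h1 : ‖coeff n (ordProj p (x : PowerSeries ℚ_[p]))‖ ≤ 1 := by
    rw [h, coeff_toQps]
    exact PadicInt.norm_le_one _
  rw [redOrd, coeff_mk, dif_pos h1, coeff_redSer]
  exact congrArg _ (Subtype.ext ((congrArg (coeff n) h).trans (coeff_toQps n L)))

theorem exists_int (h5 : 5 ≤ p) {x : ↥(qpSpace p k)} (hx : SupLe (x : PowerSeries ℚ_[p]) 1) :
    ∃ L : PowerSeries ℤ_[p], IsIntForm (natWeight p k) L ∧
      ordProj p (x : PowerSeries ℚ_[p]) = toQps p L ∧ ordProj p (toQps p L) = toQps p L := by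
  have hf := isPadicForm_of_mem h5 x.2
  obtain ⟨L, hL⟩ : ∃ L : PowerSeries ℤ_[p], toQps p L = ordProj p (x : PowerSeries ℚ_[p]) :=
    ⟨PowerSeries.mk fun n => ⟨_, supLe_ordProj h5 hf hx n⟩,
      PowerSeries.ext fun n => by rw [coeff_toQps, coeff_mk]⟩
  refine ⟨L, ?_, hL.symm, hL.symm ▸ ordProj_idem h5 hf⟩
  rw [IsIntForm, hL]
  exact (ordProj_spec h5 hf).2

theorem redOrd_mem (h5 : 5 ≤ p) (hm : 3 ≤ m) (hc : (m : ZMod (p - 1)) = (k : ZMod (p - 1)))
    {x : ↥(qpSpace p k)} (hx : SupLe (x : PowerSeries ℚ_[p]) 1) : redOrd x ∈ ordModP p m := by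
  obtain ⟨L, hL, hLe, hL'⟩ := exists_int h5 hx
  rw [redOrd_eq hLe]
  exact redSer_mem (κ := natWeight p k) h5 hm hc hL hL'

theorem exists_lift_vec (h5 : 5 ≤ p) {v : PowerSeries (ZMod p)} (hv : v ∈ ordModP p k) :
    ∃ y : ↥(qpSpace p k), SupLe (y : PowerSeries ℚ_[p]) 1 ∧ redOrd y = v := by
  obtain ⟨hv', d, hd, hvd⟩ := (mem_ordModP h5).1 hv
  obtain ⟨S, g, hS, hg, hgv⟩ := exists_lift_classical hv'
  have hg' : IsIntForm (natWeight p k) g := by
    rw [IsIntForm, hg]
    exact hS.isPadicForm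
  obtain ⟨L, -, hLe, -, hLr⟩ := redSer_ordProj h5 hg' hd (by rw [hgv]; exact hvd)
  refine ⟨⟨toQp p S, Submodule.subset_span ⟨S, hS, rfl⟩⟩,
    show SupLe (toQp p S) 1 by rw [← hg]; exact supLe_toQps g, ?_⟩
  rw [redOrd_eq (L := L) (by rw [← hLe, hg]), hLr, hgv]

theorem redOrd_add (h5 : 5 ≤ p) {x y : ↥(qpSpace p k)} (hx : SupLe (x : PowerSeries ℚ_[p]) 1)
    (hy : SupLe (y : PowerSeries ℚ_[p]) 1) : redOrd (x + y) = redOrd x + redOrd y := by
  obtain ⟨L, -, hL, -⟩ := exists_int h5 hx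
  obtain ⟨M, -, hM, -⟩ := exists_int h5 hy
  rw [redOrd_eq hL, redOrd_eq hM, redOrd_eq (L := L + M) (by
    rw [map_add, Submodule.coe_add,
      ordProj_add h5 (isPadicForm_of_mem h5 x.2) (isPadicForm_of_mem h5 y.2), hL, hM]), map_add]

theorem redOrd_smul (h5 : 5 ≤ p) {x : ↥(qpSpace p k)} (hx : SupLe (x : PowerSeries ℚ_[p]) 1)
    (c : ℤ_[p]) : redOrd ((c : ℚ_[p]) • x) = C (PadicInt.toZMod c) * redOrd x := by
  obtain ⟨L, -, hL, -⟩ := exists_int h5 hx
  rw [redOrd_eq hL, redOrd_eq (L := C c * L) (by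
    rw [toQps_C_mul, Submodule.coe_smul, PowerSeries.smul_eq_C_mul,
      ordProj_C_mul h5 (isPadicForm_of_mem h5 x.2), hL]), map_mul, redSer, map_C]

/-- **Modulo `p` every `T_l` is `a n ↦ a (n l) + l ^ (k - 1) a (n / l)`.** -/
theorem redOrd_tSer (h5 : 5 ≤ p) (hk : 2 ≤ k) {l : ℕ} (hl : l.Prime) {x y : ↥(qpSpace p k)}
    (hy : (y : PowerSeries ℚ_[p]) = tSer ((l : ℚ_[p]) ^ (k - 1)) l (x : PowerSeries ℚ_[p]))
    (hx : SupLe (x : PowerSeries ℚ_[p]) 1) :
    redOrd y = tSer ((l : ZMod p) ^ (k - 1)) l (redOrd x) := by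
  obtain ⟨L, -, hL, -⟩ := exists_int h5 hx
  have hf := isPadicForm_of_mem h5 x.2
  rw [redOrd_eq hL]
  rcases eq_or_ne l p with rfl | hlp
  · obtain ⟨V, hV⟩ : ∃ V : PowerSeries ℤ_[l],
        toQps l V = ordProj l (vSer l (x : PowerSeries ℚ_[l])) :=
      ⟨PowerSeries.mk fun n => ⟨_, supLe_ordProj h5 (hf.vSer h5) hx.vSer n⟩,
        PowerSeries.ext fun n => by rw [coeff_toQps, coeff_mk]⟩
    rw [redOrd_eq (L := uSer l L + C ((l : ℤ_[l]) ^ (k - 1)) * V) (by
      rw [hy, tSer_self, map_add, toQps_uSer, toQps_C_mul, hV, ← hL, PadicInt.coe_pow,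
        PadicInt.coe_natCast, ordProj_add h5 (hf.uSer h5) ((hf.vSer h5).C_mul _),
        ordProj_uSer h5 hf, ordProj_C_mul h5 (hf.vSer h5)])]
    refine PowerSeries.ext fun n => ?_
    rw [coeff_tSer, coeff_redSer, coeff_redSer, ZMod.natCast_self, zero_pow (by omega), map_add,
      coeff_uSer, coeff_C_mul, map_add, map_mul, map_pow, map_natCast, ZMod.natCast_self,
      zero_pow (by omega), zero_mul, mul_comm n l, ite_eq_right_iff.2 fun _ => by rw [zero_mul]]
  · have h := ordProj_tSer (θ := (l : ℤ_[p]) ^ (k - 1)) h5 hl hlp hf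
    rw [PadicInt.coe_pow, PadicInt.coe_natCast] at h
    rw [redOrd_eq (L := tSer ((l : ℤ_[p]) ^ (k - 1)) l L) (by
      rw [hy, h, hL, toQps_tSer, PadicInt.coe_pow, PadicInt.coe_natCast]), redSer, map_tSer,
      map_pow, map_natCast]

/-- The multipliers agree on congruent weights. -/
theorem pow_congr (l : ℕ) (hk : 2 ≤ k) (hm : 2 ≤ m)
    (hc : (k : ZMod (p - 1)) = (m : ZMod (p - 1))) :
    (l : ZMod p) ^ (k - 1) = (l : ZMod p) ^ (m - 1) := by
  rcases eq_or_ne (l : ZMod p) 0 with h | h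
  · rw [h, zero_pow (by omega), zero_pow (by omega)]
  · refine pow_eq_pow_of_modEq ?_ (ZMod.pow_card_sub_one_eq_one h)
    refine Nat.ModEq.add_right_cancel' 1 ?_
    rw [show k - 1 + 1 = k by omega, show m - 1 + 1 = m by omega]
    exact (ZMod.natCast_eq_natCast_iff _ _ _).1 hc

/-- Polynomials in the operators. -/
abbrev HeckePoly : Type := MvPolynomial {l : ℕ // l.Prime} ℤ

/-- A polynomial in the `T_l` of weight `k`. -/
def heckeHom (p : ℕ) [Fact p.Prime] (hk : 3 ≤ k) : HeckePoly →+* ↥(lvlAlg p k) :=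
  MvPolynomial.eval₂Hom (Int.castRingHom _)
    fun l => Classical.choose (exists_tLvl (p := p) hk l.2)

theorem act_heckeHom_X (hk : 3 ≤ k) (l : {l : ℕ // l.Prime}) (x : ↥(qpSpace p k)) :
    (act (heckeHom p hk (MvPolynomial.X l)) x : PowerSeries ℚ_[p]) =
      tSer ((l.1 : ℚ_[p]) ^ (k - 1)) l.1 (x : PowerSeries ℚ_[p]) := by
  rw [heckeHom, MvPolynomial.eval₂Hom_X']
  exact Classical.choose_spec (exists_tLvl (p := p) hk l.2) x

theorem act_heckeHom_C (hk : 3 ≤ k) (a : ℤ) (x : ↥(qpSpace p k)) :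
    act (heckeHom p hk (MvPolynomial.C a)) x = ((a : ℤ_[p]) : ℚ_[p]) • x := by
  rw [heckeHom, MvPolynomial.eval₂Hom_C, eq_intCast, PadicInt.coe_intCast,
    ← map_intCast (algebraMap ℚ_[p] ↥(lvlAlg p k)) a]
  rfl

theorem supLe_heckeHom (hk : 3 ≤ k) (r : HeckePoly) {x : ↥(qpSpace p k)}
    (hx : SupLe (x : PowerSeries ℚ_[p]) 1) :
    SupLe (act (heckeHom p hk r) x : PowerSeries ℚ_[p]) 1 := by
  induction r using MvPolynomial.induction_on generalizing x with
  | C a =>
    rw [act_heckeHom_C, Submodule.coe_smul, PowerSeries.smul_eq_C_mul]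
    refine (hx.C_mul _).mono ?_
    rw [mul_one, ← PadicInt.norm_def]
    exact PadicInt.norm_le_one _
  | add r s hr hs =>
    rw [map_add, show act (heckeHom p hk r + heckeHom p hk s) x =
      act (heckeHom p hk r) x + act (heckeHom p hk s) x from rfl, Submodule.coe_add]
    exact (hr hx).add (hs hx)
  | mul_X r l hr =>
    rw [map_mul, show act (heckeHom p hk r * heckeHom p hk (MvPolynomial.X l)) x =
      act (heckeHom p hk r) (act (heckeHom p hk (MvPolynomial.X l)) x) from rfl]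
    refine hr ?_
    rw [act_heckeHom_X, ← PadicInt.coe_natCast, ← PadicInt.coe_pow]
    exact supLe_tSer hx

/-- **The action modulo `p` depends only on the class.** -/
theorem redOrd_congr (h5 : 5 ≤ p) (hk : 3 ≤ k) (hm : 3 ≤ m)
    (hc : (k : ZMod (p - 1)) = (m : ZMod (p - 1))) (r : HeckePoly) {x : ↥(qpSpace p k)}
    {y : ↥(qpSpace p m)} (hx : SupLe (x : PowerSeries ℚ_[p]) 1)
    (hy : SupLe (y : PowerSeries ℚ_[p]) 1) (h : redOrd x = redOrd y) :
    redOrd (act (heckeHom p hk r) x) = redOrd (act (heckeHom p hm r) y) := by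
  induction r using MvPolynomial.induction_on generalizing x y with
  | C a => rw [act_heckeHom_C, act_heckeHom_C, redOrd_smul h5 hx, redOrd_smul h5 hy, h]
  | add r s hr hs =>
    rw [map_add, map_add, show act (heckeHom p hk r + heckeHom p hk s) x =
        act (heckeHom p hk r) x + act (heckeHom p hk s) x from rfl,
      show act (heckeHom p hm r + heckeHom p hm s) y =
        act (heckeHom p hm r) y + act (heckeHom p hm s) y from rfl,
      redOrd_add h5 (supLe_heckeHom hk r hx) (supLe_heckeHom hk s hx),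
      redOrd_add h5 (supLe_heckeHom hm r hy) (supLe_heckeHom hm s hy), hr hx hy h, hs hx hy h]
  | mul_X r l hr =>
    rw [map_mul, map_mul, show act (heckeHom p hk r * heckeHom p hk (MvPolynomial.X l)) x =
        act (heckeHom p hk r) (act (heckeHom p hk (MvPolynomial.X l)) x) from rfl,
      show act (heckeHom p hm r * heckeHom p hm (MvPolynomial.X l)) y =
        act (heckeHom p hm r) (act (heckeHom p hm (MvPolynomial.X l)) y) from rfl]
    refine hr (supLe_heckeHom hk _ hx) (supLe_heckeHom hm _ hy) ?_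
    rw [redOrd_tSer h5 (by omega) l.2 (act_heckeHom_X hk l x) hx,
      redOrd_tSer h5 (by omega) l.2 (act_heckeHom_X hm l y) hy, h,
      pow_congr l.1 (by omega) (by omega) hc]

end FA.OrdinaryCongruence

end
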